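import Fermat.Agent.S17.Sieg.Final
import Fermat.Agent.S17.FC.Mul
import Fermat.Agent.S17.FC.Thr

/-!
# S17, leaf (sieg): unconditional form at the common threshold `cFC N`; (nzd) for `tau`
-/

set_option autoImplicit false
set_option linter.unusedSectionVars false

open AlgebraicCurve ModularCurve Height

namespace Fermat.Agent.S17Lib

open Fermat.Agent.S18Lib Fermat.Agent.S24Lib Fermat.Agent.ESLib Fermat.Agent.FFLib
  Fermat.Agent.S28Lib

variable (N : ℕ) [NeZero N]

/-- multiplication of `ℚ̄`-coordinates through the structure constants -/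
theorem SGF_vecB_mul (m b : ℕ) (f : Fin (dV N m) → Qb) (w : Fin (dV N b) → Qb) :
    vecB N m f * vecB N b w =
      vecB N (b + m) (fun l => ∑ a, ∑ i, f a * w i * algebraMap ℚ Qb (tau N m b a i l)) := by
  rw [vecB_apply, vecB_apply, vecB_apply, Finset.sum_mul_sum]
  have h : ∀ a i, (f a • bas N m a) * (w i • bas N b i)
      = ∑ l, (f a * w i * algebraMap ℚ Qb (tau N m b a i l)) • bas N (b + m) l := by
    intro a i
    rw [smul_mul_smul_comm, FCM_tau_spec N m b a i, vecQ_apply, Finset.smul_sum]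
    refine Finset.sum_congr rfl fun l _ => ?_
    rw [smul_smul]
  simp only [h, Finset.sum_smul]
  have h2 : ∀ a, ∑ i, ∑ l, (f a * w i * algebraMap ℚ Qb (tau N m b a i l)) • bas N (b + m) l =
      ∑ l, ∑ i, (f a * w i * algebraMap ℚ Qb (tau N m b a i l)) • bas N (b + m) l :=
    fun a => Finset.sum_comm
  simp only [h2]
  exact Finset.sum_comm

/-- (nzd): no zero divisors over `ℚ̄` for the structure constants `tau` -/
theorem SGF_nzd (m b : ℕ) (f : Fin (dV N m) → AlgebraicClosure ℚ)
    (w : Fin (dV N b) → AlgebraicClosure ℚ)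
    (h : ∀ l, ∑ a, ∑ i, f a * w i * algebraMap ℚ (AlgebraicClosure ℚ) (tau N m b a i l) = 0) :
    f = 0 ∨ w = 0 := by
  have h1 := SGF_vecB_mul N m b f w
  have h2 : (fun l => ∑ a, ∑ i, f a * w i * algebraMap ℚ Qb (tau N m b a i l)) = 0 := funext h
  rw [h2, map_zero] at h1
  rcases mul_eq_zero.mp h1 with h3 | h3
  · left
    exact vecB_injective N m (by rw [h3, map_zero])
  · right
    exact vecB_injective N b (by rw [h3, map_zero])

/-- (sieg), unconditional, verbatim `PNa.Extra.sieg` for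
`(dvDeg N, dvCl N, genusR Qb (FB N), cFC N, fun b E => FC_HH N b E.1)` -/
theorem FC_sieg_cFC :
    ∀ m n B : ℕ, n + cFC N ≤ m → m + cFC N ≤ B → ∃ C : ℝ, ∀ R : Dv N, dvDeg N R = n →
      ∃ E : Dv N, dvDeg N E = m - n ∧ dvCl N E = - dvCl N R ∧
        ((m : ℝ) - n + 1 - (genusR Qb (FB N) : ℕ)) *
          (FC_HH N (B + 1) (R + E).1 - FC_HH N B (R + E).1) ≤ FC_HH N m R.1 + C :=
  FC_sieg_final N (cFC N) (cFC_rr N) (by have := cFC_genus N; omega) (SGF_nzd N)
    (fun m b x hx => by
      have := FCM_map_mulQ_WQ N m b hx (E := 0) le_rfl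
      rwa [zero_add] at this)

end Fermat.Agent.S17Lib
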