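import Fermat.Agent.S17.Sieg.Main
import Fermat.Agent.S17.FC.WQ
import Fermat.Agent.S17.FC.GalZ

/-!
# S17, leaf (sieg): instantiation with `dvDeg`, `dvCl`
-/

set_option autoImplicit false
set_option linter.unusedSectionVars false

open AlgebraicCurve ModularCurve Height

namespace Fermat.Agent.S17Lib

open Fermat.Agent.S18Lib Fermat.Agent.S24Lib Fermat.Agent.ESLib Fermat.Agent.FFLib
  Fermat.Agent.S28Lib

variable (N : ℕ) [NeZero N]

/-- (hfin): the dimension of `WQ N b E` above the Riemann-Roch threshold. -/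
theorem FC_hfin (c : ℕ) (hc : IsRRBound Qb (FB N) (c : ℤ)) (b : ℕ) (E : Dv N)
    (h : dvDeg N E + c ≤ b) :
    Module.finrank ℚ (WQ N b E.1) = b - dvDeg N E + 1 - genusR Qb (FB N) := by
  rw [finrank_WQ N b E.2]
  have h1 := hc (dvo N b E.1) (by rw [FG_degree_dvo]; omega)
  rw [FG_degree_dvo] at h1
  omega

/-- (sieg) for the frame `(Dv N, dvDeg N, dvCl N, FC_HH N)`, from (hnzd) and (hmul). -/
theorem FC_sieg_final (c : ℕ) (hc : IsRRBound Qb (FB N) (c : ℤ)) (hgc : genusR Qb (FB N) ≤ c)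
    (hnzd : ∀ (m b : ℕ) (f : Fin (dV N m) → AlgebraicClosure ℚ)
      (w : Fin (dV N b) → AlgebraicClosure ℚ),
      (∀ l, ∑ a, ∑ i, f a * w i * algebraMap ℚ (AlgebraicClosure ℚ) (tau N m b a i l) = 0) →
      f = 0 ∨ w = 0)
    (hmul : ∀ (m b : ℕ) (x : Fin (dV N m) → ℚ), x ≠ 0 →
      (WQ N b 0).map (mulQ N m b x) = WQ N (b + m) (Zd N m x)) :
    ∀ m n B : ℕ, n + c ≤ m → m + c ≤ B → ∃ C : ℝ, ∀ R : Dv N, dvDeg N R = n →
      ∃ E : Dv N, dvDeg N E = m - n ∧ dvCl N E = - dvCl N R ∧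
        ((m : ℝ) - n + 1 - (genusR Qb (FB N) : ℕ)) *
          (FC_HH N (B + 1) (R + E).1 - FC_HH N B (R + E).1) ≤ FC_HH N m R.1 + C :=
  FC_sieg N (dvDeg N) (dvCl N) (genusR Qb (FB N)) c hgc (FC_hfin N c hc) hnzd hmul
    (fun m R x hx hx0 => FG_hZ N m R x hx hx0)

end Fermat.Agent.S17Lib
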