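import Fermat.Agent.S17.FC.Defs
import Fermat.Agent.S17.PL.Sub
import Fermat.Agent.S17.Siegel

/-!
# S17, leaf (sieg): Siegel's lemma on the frame `FC/Defs.lean`
-/

set_option autoImplicit false
set_option linter.unusedSectionVars false

open Height

namespace Fermat.Agent.S17Lib

/-- Siegel's lemma for subspaces: a nonzero vector of small height. -/
theorem SGF_exists_small {d : ℕ} (W : Submodule ℚ (Fin d → ℚ)) (hW : 0 < Module.finrank ℚ W) :
    ∃ x ∈ W, x ≠ 0 ∧ (Module.finrank ℚ W : ℝ) * logHeight x ≤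
      subH W + Module.finrank ℚ W * Real.log (Module.finrank ℚ W) := by
  obtain ⟨w, hw, hs⟩ := PL_exists_basis W
  obtain ⟨a, ha, h⟩ := siegel_plucker hW (Matrix.of w) hw
  have hk : (0 : ℝ) < Module.finrank ℚ W := by exact_mod_cast hW
  have e : Matrix.vecMul a (Matrix.of w) = ∑ i, a i • w i := by
    funext j
    simp [Matrix.vecMul, dotProduct, Finset.sum_apply]
  refine ⟨Matrix.vecMul a (Matrix.of w), ?_, ?_, ?_⟩
  · rw [e]
    exact Submodule.sum_mem _ fun i _ => Submodule.smul_mem _ _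
      (hs ▸ Submodule.subset_span ⟨i, rfl⟩ : w i ∈ W)
  · intro h0
    rw [e] at h0
    exact ha (funext fun i => (Fintype.linearIndependent_iff.mp hw a h0 i))
  · rw [PL_subH_eq W w hw hs]
    have h1 : logHeight (fun I : Fin (Module.finrank ℚ W) → Fin d =>
        ((Matrix.of w).submatrix id I).det) = logHeight (pl w) := rfl
    rw [h1] at h
    calc (Module.finrank ℚ W : ℝ) * logHeight (Matrix.vecMul a (Matrix.of w))
        ≤ (Module.finrank ℚ W : ℝ) * (logHeight (pl w) / Module.finrank ℚ W +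
          Real.log (Module.finrank ℚ W)) := mul_le_mul_of_nonneg_left h hk.le
      _ = _ := by field_simp

variable (N : ℕ) [NeZero N] {A : Type*} [AddCommGroup A]

/-- (sieg) on the frame, from four frame facts. -/
theorem FC_sieg (deg : Dv N →+ ℕ) (cl : Dv N →+ A) (g c : ℕ) (hgc : g ≤ c)
    (hfin : ∀ (b : ℕ) (E : Dv N), deg E + c ≤ b →
      Module.finrank ℚ (WQ N b E.1) = b - deg E + 1 - g)
    (hnzd : ∀ (m b : ℕ) (f : Fin (dV N m) → AlgebraicClosure ℚ)
      (w : Fin (dV N b) → AlgebraicClosure ℚ),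
      (∀ l, ∑ a, ∑ i, f a * w i * algebraMap ℚ (AlgebraicClosure ℚ) (tau N m b a i l) = 0) →
      f = 0 ∨ w = 0)
    (hmul : ∀ (m b : ℕ) (x : Fin (dV N m) → ℚ), x ≠ 0 →
      (WQ N b 0).map (mulQ N m b x) = WQ N (b + m) (Zd N m x))
    (hZ : ∀ (m : ℕ) (R : Dv N) (x : Fin (dV N m) → ℚ), x ∈ WQ N m R.1 → x ≠ 0 →
      ∃ E : Dv N, (R + E).1 = Zd N m x ∧ deg E = m - deg R ∧ cl E = - cl R) :
    ∀ m n B : ℕ, n + c ≤ m → m + c ≤ B → ∃ C : ℝ, ∀ R : Dv N, deg R = n →
      ∃ E : Dv N, deg E = m - n ∧ cl E = - cl R ∧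
        ((m : ℝ) - n + 1 - g) * (FC_HH N (B + 1) (R + E).1 - FC_HH N B (R + E).1) ≤
          FC_HH N m R.1 + C := by
  intro m n B hnm hmB
  obtain ⟨b, rfl⟩ : ∃ b, B = b + m := ⟨B - m, by omega⟩
  obtain ⟨C₁, h₁⟩ := PL_subH_mul_abs (tau N m b) (hnzd m b)
  obtain ⟨C₂, h₂⟩ := PL_subH_mul_abs (tau N m (b + 1)) (hnzd m (b + 1))
  set k : ℕ := m - n + 1 - g with hk
  have hk1 : 0 < k := by omega
  have hkR : (k : ℝ) = (m : ℝ) - n + 1 - g := by
    rw [hk, Nat.cast_sub (by omega), Nat.cast_add, Nat.cast_sub (by omega)]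
    simp
  have f0 : Module.finrank ℚ (WQ N b 0) = b + 1 - g := by
    have := hfin b 0 (by rw [map_zero]; omega)
    rw [map_zero] at this
    simpa using this
  have f1 : Module.finrank ℚ (WQ N (b + 1) 0) = b + 1 - g + 1 := by
    have := hfin (b + 1) 0 (by rw [map_zero]; omega)
    rw [map_zero] at this
    have h2 : Module.finrank ℚ (WQ N (b + 1) 0) = b + 1 + 1 - g := by simpa using this
    rw [h2]
    omega
  refine ⟨k * (subH (WQ N (b + 1) 0) - subH (WQ N b 0) + C₁ + C₂) + k * Real.log k,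
    fun R hR => ?_⟩
  have fR : Module.finrank ℚ (WQ N m R.1) = k := by
    rw [hfin m R (by omega), hR]
  obtain ⟨x, hxW, hx0, hx⟩ := SGF_exists_small (WQ N m R.1) (by rw [fR]; exact hk1)
  rw [fR] at hx
  obtain ⟨E, hE1, hE2, hE3⟩ := hZ m R x hxW hx0
  refine ⟨E, by rw [hE2, hR], hE3, ?_⟩
  rw [hE1, ← hkR, show b + m + 1 = b + 1 + m by ring]
  have a1 := h₁ x (WQ N b 0) hx0
  have a2 := h₂ x (WQ N (b + 1) 0) hx0
  have e1 : FC_HH N (b + m) (Zd N m x) = subH ((WQ N b 0).map (mulQ N m b x)) := by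
    rw [hmul m b x hx0]; rfl
  have e2 : FC_HH N (b + 1 + m) (Zd N m x) = subH ((WQ N (b + 1) 0).map (mulQ N m (b + 1) x)) := by
    rw [hmul m (b + 1) x hx0]; rfl
  rw [e1, e2]
  rw [f0] at a1
  rw [f1] at a2
  change |subH ((WQ N b 0).map (mulQ N m b x)) - _| ≤ C₁ at a1
  change |subH ((WQ N (b + 1) 0).map (mulQ N m (b + 1) x)) - _| ≤ C₂ at a2
  rw [abs_le] at a1 a2
  push_cast at a1 a2
  have hk0 : (0 : ℝ) ≤ k := Nat.cast_nonneg k
  have key : subH ((WQ N (b + 1) 0).map (mulQ N m (b + 1) x)) -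
      subH ((WQ N b 0).map (mulQ N m b x)) ≤
      logHeight x + (subH (WQ N (b + 1) 0) - subH (WQ N b 0) + C₁ + C₂) := by
    linarith [a1.1, a2.2]
  have := mul_le_mul_of_nonneg_left key hk0
  change _ ≤ subH (WQ N m R.1) + _
  nlinarith

end Fermat.Agent.S17Lib
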